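/-
S41 (helper52): (R) the Hecke operators `TX` commute with the restriction degeneracy map
`degRes : Hom(Γ₀(N), A) → Hom(Γ₀(N q), A)` (helper15 #2978 / #3003), in the literal `Hecke15` API.
Valid for every `ℓ` with `¬ ℓ ∣ q` (both cases `ℓ ∤ N q` (T) and `ℓ ∣ N` (U); `TX = 0` otherwise).
-/
import Mathlib
import Fermat.Agent.S41.Hecke15.Degen

set_option autoImplicit false

open scoped MatrixGroups
open CongruenceSubgroup ModularForm ModularCurve ModularCurve.Period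
open Fermat.Agent.S16.HeckeHom24
open Fermat.Agent.S41.Hecke15

namespace Fermat.Agent.S41.ESInt52

variable {A : Type*} [AddCommGroup A]

/-- The two embeddings agree along the inclusion `Γ₀(N') → Γ₀(N)`. -/
theorem eGL_inclGamma0 {N N' : ℕ} (h : N ∣ N') (γ' : Gamma0 N') :
    eGL N (inclGamma0 h γ') = eGL N' γ' := rfl

/-- **(R), general divisibility form**: `TX` commutes with `degRes` along `N ∣ N'` as soon as the
prime `ℓ` divides `N'` iff it divides `N`. -/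
theorem TX_degRes_of_dvd_iff {N N' : ℕ} [NeZero N] [NeZero N'] (h : N ∣ N') {ℓ : ℕ}
    (hiff : ℓ ∣ N' ↔ ℓ ∣ N) (φ : Additive (Gamma0 N) →+ A) :
    TX N' A ℓ (degRes h A φ) = degRes h A (TX N A ℓ φ) := by
  by_cases hℓ : ℓ.Prime
  · refine AddMonoidHom.ext fun γ' => ?_
    obtain ⟨γ', rfl⟩ := Additive.ofMul.surjective γ'
    rw [degRes_apply]
    by_cases hℓN : ℓ ∣ N
    · have hℓN' : ℓ ∣ N' := hiff.mpr hℓN
      obtain ⟨σ, c, hc⟩ := stable_uRep (N := N') hℓN' γ'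
      rw [TX_apply_of_reps_U hℓ hℓN' _ γ' σ c hc,
        TX_apply_of_reps_U hℓ hℓN φ (inclGamma0 h γ') σ (fun i => inclGamma0 h (c i))
          (fun i => by rw [eGL_inclGamma0, eGL_inclGamma0]; exact hc i)]
      exact Finset.sum_congr rfl fun i _ => degRes_apply h φ (c i)
    · have hℓN' : ¬ ℓ ∣ N' := fun h' => hℓN (hiff.mp h')
      obtain ⟨σ, c, hc⟩ := stable_tRep (N := N') hℓ hℓN' γ'
      rw [TX_apply_of_reps_T hℓ hℓN' _ γ' σ c hc,
        TX_apply_of_reps_T hℓ hℓN φ (inclGamma0 h γ') σ (fun i => inclGamma0 h (c i))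
          (fun i => by rw [eGL_inclGamma0, eGL_inclGamma0]; exact hc i)]
      exact Finset.sum_congr rfl fun i _ => degRes_apply h φ (c i)
  · simp [TX, hℓ]

/-- **(R)**: `TX (N q) ℓ ∘ degRes = degRes ∘ TX N ℓ` for every `ℓ` coprime to `q`
(`ℓ ∤ N q`: `T_ℓ` on both sides; `ℓ ∣ N`: `U_ℓ` on both sides). -/
theorem TX_degRes {N q : ℕ} [NeZero N] [NeZero (N * q)] {ℓ : ℕ}
    (hcop : Nat.Coprime ℓ q) (φ : Additive (Gamma0 N) →+ A) :
    TX (N * q) A ℓ (degRes (Dvd.intro q rfl) A φ) =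
      degRes (Dvd.intro q rfl) A (TX N A ℓ φ) :=
  TX_degRes_of_dvd_iff (Dvd.intro q rfl)
    ⟨fun h => (Nat.Coprime.dvd_mul_right hcop).mp h, fun h => Dvd.dvd.mul_right h q⟩ φ

/-- **(R)** for two distinct primes `ℓ ≠ q`. -/
theorem TX_degRes_of_ne {N q : ℕ} [NeZero N] [NeZero (N * q)] {ℓ : ℕ} (hℓ : ℓ.Prime)
    (hq : q.Prime) (hℓq : ℓ ≠ q) (φ : Additive (Gamma0 N) →+ A) :
    TX (N * q) A ℓ (degRes (Dvd.intro q rfl) A φ) =
      degRes (Dvd.intro q rfl) A (TX N A ℓ φ) :=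
  TX_degRes ((Nat.coprime_primes hℓ hq).mpr hℓq) φ

end Fermat.Agent.S41.ESInt52
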