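/-
S41 (helper52): (D) the Hecke operators `TX` commute with the second degeneracy map
`degConj : Hom(Γ₀(N), A) → Hom(Γ₀(N q), A)` (helper15 #2978 / #3003), for `q` prime, `q ∤ N`,
`ℓ ≠ q` prime: `degConj = W_q ∘ degRes` (helper63), `W_q` commutes with `TX` (helper15), and
`degRes` commutes with `TX` (`ESInt52.TX_degRes`).
-/
import Mathlib
import Fermat.Agent.S41.ESInt52.DegComm
import Fermat.Agent.S41.Hecke15.WComm
import Fermat.Agent.S41.New63.BetaAlpha

set_option autoImplicit false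

open scoped MatrixGroups
open CongruenceSubgroup ModularForm ModularCurve ModularCurve.Period
open Fermat.Agent.S16.HeckeHom24
open Fermat.Agent.S41.Hecke15 Fermat.Agent.S41.New63

namespace Fermat.Agent.S41.ESInt52

variable {A : Type*} [AddCommGroup A]

/-- **(D)**: `TX (N q) ℓ ∘ degConj = degConj ∘ TX N ℓ`, `q` prime not dividing `N`, `ℓ ≠ q` prime
(`ℓ ∤ N q`: `T_ℓ` on both sides; `ℓ ∣ N`: `U_ℓ` on both sides). -/
theorem TX_degConj {N q : ℕ} [Fact q.Prime] [NeZero N] [NeZero (N * q)] (hqN : ¬ q ∣ N)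
    (hq : 0 < q) {ℓ : ℕ} (hℓ : ℓ.Prime) (hℓq : ℓ ≠ q) (φ : Additive (Gamma0 N) →+ A) :
    TX (N * q) A ℓ (degConj hq A φ) = degConj hq A (TX N A ℓ φ) := by
  obtain ⟨x, y, hxy⟩ := exists_bezout63 N q (Fact.out) hqN
  have h1 : ∀ ψ : Additive (Gamma0 N) →+ A, degConj hq A ψ =
      WOp N q x y hxy (Hecke15.degRes (Dvd.intro q rfl) A ψ) :=
    fun ψ => (WOp_degRes N q x y hxy ψ).symm
  rw [h1, h1, ← WOp_TX_comm N q x y hxy hℓ hℓq, TX_degRes_of_ne hℓ Fact.out hℓq]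

end Fermat.Agent.S41.ESInt52
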