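import Mathlib
import Fermat.Agent.S21.PeriodPrim

/-!
# S41, [ES-INT] (A): the period map of a finite sum of slashes

For `f : CuspForm (Gamma0 N) 2`, `f' : CuspForm (Gamma0 N') 2` with `⇑f' = ∑ i, ⇑f ∣[2] α i` for a
finite family `α i : GL (Fin 2) ℝ` of positive determinant, and for `γ ∈ Γ₀(N')` such that
`α i * γ = γ' i * α (σ i)` with `γ' i ∈ Γ₀(N)` and `σ` a permutation of the index set, one has

  `periodMap N' f' γ = ∑ i, periodMap N f (γ' i)`.

This single statement gives the compatibility of the Eichler–Shimura period map with the Hecke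
operators `T_ℓ`, `U_ℓ`, with both degeneracy maps and with the trace maps, for any choice of coset
representatives.
-/

set_option autoImplicit false

open Complex Filter Topology Function
open UpperHalfPlane hiding I
open scoped MatrixGroups Manifold ModularForm
open ModularCurve ModularCurve.Period CongruenceSubgroup
open Fermat.Agent.S22 Fermat.Agent.S21.PeriodPrim

namespace Fermat.Agent.S41.ESInt52

variable {N N' : ℕ}

/-- Weight-two slash by an element of positive determinant, pointwise. -/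
theorem slash_two_apply_of_det_pos (g : ℍ → ℂ) {a : GL (Fin 2) ℝ} (ha : 0 < a.val.det) (τ : ℍ) :
    (g ∣[(2 : ℤ)] a) τ = g (a • τ) * ((a.val.det : ℂ) / denom a τ ^ 2) := by
  have hσ : UpperHalfPlane.σ a = .refl ℝ ℂ := by
    rw [UpperHalfPlane.σ, if_pos]
    simpa using ha
  have hdet : (a.det.val : ℝ) = a.val.det := by simp
  rw [ModularForm.slash_apply, hσ]
  simp only [ContinuousAlgEquiv.refl_apply]
  rw [hdet, abs_of_pos ha]
  have : ((2 : ℤ) - 1) = 1 := by norm_num
  rw [this, zpow_one, zpow_neg, mul_assoc, div_eq_mul_inv]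
  norm_cast

/-- The derivative of `w ↦ primF f (a • w)` is `f ∣[2] a` (for `det a > 0`). -/
theorem hasDerivAt_primF_glSmul [NeZero N] (f : CuspForm (Gamma0 N) 2) {a : GL (Fin 2) ℝ}
    (ha : 0 < a.val.det) (τ : ℍ) :
    HasDerivAt ((fun w : ℍ => primF f (a • w)) ∘ ofComplex) (((f : ℍ → ℂ) ∣[(2 : ℤ)] a) τ) τ := by
  have h1 := hasDerivAt_primF f (a • τ)
  have h2 := (hasStrictDerivAt_smul ha τ).hasDerivAt
  have h3 : ((a • ofComplex (τ : ℂ) : ℍ) : ℂ) = ((a • τ : ℍ) : ℂ) := by
    rw [ofComplex_apply]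
  have h4 := HasDerivAt.comp_of_eq (τ : ℂ) h1 h2 h3.symm
  rw [slash_two_apply_of_det_pos _ ha]
  refine h4.congr_of_eventuallyEq ?_
  filter_upwards with z
  simp only [comp_apply, ofComplex_apply]

/-- The `SL(2, ℤ)`-action on `ℍ` is the action through `mapGL ℝ`. -/
theorem sl_smul_eq (s : SL(2, ℤ)) (z : ℍ) :
    s • z = (Matrix.SpecialLinearGroup.mapGL ℝ s : GL (Fin 2) ℝ) • z := rfl

/-- **Period map of a sum of slashes.** -/
theorem periodMap_of_sum_slash [NeZero N] [NeZero N']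
    (f : CuspForm (Gamma0 N) 2) (f' : CuspForm (Gamma0 N') 2)
    {ι : Type*} [Fintype ι] (α : ι → GL (Fin 2) ℝ) (hdet : ∀ i, 0 < (α i).val.det)
    (hf' : (f' : ℍ → ℂ) = ∑ i, (f : ℍ → ℂ) ∣[(2 : ℤ)] α i)
    (γ : Gamma0 N') (σ : ι ≃ ι) (γ' : ι → Gamma0 N)
    (h : ∀ i, α i * (Matrix.SpecialLinearGroup.mapGL ℝ (γ : SL(2, ℤ)) : GL (Fin 2) ℝ)
      = (Matrix.SpecialLinearGroup.mapGL ℝ (γ' i : SL(2, ℤ)) : GL (Fin 2) ℝ) * α (σ i)) :
    periodMap N' f' (Additive.ofMul γ) = ∑ i, periodMap N f (Additive.ofMul (γ' i)) := by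
  classical
  -- the candidate primitive
  set G : ℍ → ℂ := fun w => ∑ i, primF f (α i • w) with hG
  have hGd : ∀ τ : ℍ, HasDerivAt (G ∘ ofComplex) (f' τ) τ := by
    intro τ
    have hsum : HasDerivAt (fun z : ℂ => ∑ i, ((fun w : ℍ => primF f (α i • w)) ∘ ofComplex) z)
        (∑ i, ((f : ℍ → ℂ) ∣[(2 : ℤ)] α i) τ) τ :=
      HasDerivAt.fun_sum fun i _ => hasDerivAt_primF_glSmul f (hdet i) τ
    have hval : f' τ = ∑ i, ((f : ℍ → ℂ) ∣[(2 : ℤ)] α i) τ := by
      have := congrFun hf' τ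
      rw [this, Finset.sum_apply]
    rw [hval]
    exact hsum
  -- `G - primF f'` is constant
  have hconst : ∀ z z' : ℍ, G z - primF f' z = G z' - primF f' z' := by
    have hd : ∀ τ : ℍ, HasDerivAt ((fun w : ℍ => G w - primF f' w) ∘ ofComplex) 0 τ := by
      intro τ
      have h2 := (hGd τ).sub (hasDerivAt_primF f' τ)
      rw [sub_self] at h2
      exact h2
    exact fun z z' => eq_of_hasDerivAt_zero hd z z'
  -- compute
  set z : ℍ := UpperHalfPlane.I with hz
  rw [periodMap_apply f' γ z]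
  have h1 : primF f' ((γ : SL(2, ℤ)) • z) - primF f' z = G ((γ : SL(2, ℤ)) • z) - G z := by
    have := hconst ((γ : SL(2, ℤ)) • z) z
    linear_combination -this
  rw [h1]
  have h2 : ∀ i, primF f (α i • ((γ : SL(2, ℤ)) • z))
      = periodMap N f (Additive.ofMul (γ' i)) + primF f (α (σ i) • z) := by
    intro i
    have hact : α i • ((γ : SL(2, ℤ)) • z) = ((γ' i : Gamma0 N) : SL(2, ℤ)) • (α (σ i) • z) := by
      rw [sl_smul_eq, sl_smul_eq, ← mul_smul, ← mul_smul, h i]
    rw [hact, periodMap_apply f (γ' i) (α (σ i) • z)]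
    ring
  have h3 : G ((γ : SL(2, ℤ)) • z)
      = ∑ i, periodMap N f (Additive.ofMul (γ' i)) + ∑ i, primF f (α (σ i) • z) := by
    rw [hG]
    simp only
    rw [← Finset.sum_add_distrib]
    exact Finset.sum_congr rfl fun i _ => h2 i
  have h4 : ∑ i, primF f (α (σ i) • z) = G z := by
    rw [hG]
    exact Equiv.sum_comp σ fun i => primF f (α i • z)
  rw [h3, h4]
  ring

end Fermat.Agent.S41.ESInt52
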