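import Mathlib
import Fermat.Agent.S41.ESInt52.PeriodSlash
import Fermat.Agent.S41.Hecke15.Abstract

/-!
# S41, C2 [ES-EQUIV]: the period map intertwines slash-sums with the abstract Hecke operators

For ANY stable family `α : ι → GL (Fin 2) ℝ` (in the sense of `Hecke15.IsStable`) of positive
determinant between `Γ₀(N)` and `Γ₀(N')`, and cusp forms with `⇑f' = ∑ i, ⇑f ∣[2] α i`:

  `heckeHom e he e' α hα (periodMap N f) = periodMap N' f'`.
-/

set_option autoImplicit false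

open Complex Filter Topology Function
open UpperHalfPlane hiding I
open scoped MatrixGroups Manifold ModularForm
open ModularCurve ModularCurve.Period CongruenceSubgroup
open Fermat.Agent.S41.Hecke15

namespace Fermat.Agent.S41.ESInt52

variable {N N' : ℕ}

/-- **[ES-EQUIV], generic form.** `e`, `e'` are the embeddings of `Γ₀(N)`, `Γ₀(N')` into
`GL (Fin 2) ℝ` (any homs that are pointwise `mapGL ℝ ∘ coe`). -/
theorem heckeHom_periodMap [NeZero N] [NeZero N']
    (e : Gamma0 N →* GL (Fin 2) ℝ) (he : Function.Injective e)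
    (e' : Gamma0 N' →* GL (Fin 2) ℝ)
    (he_eq : ∀ γ : Gamma0 N, e γ = Matrix.SpecialLinearGroup.mapGL ℝ (γ : SL(2, ℤ)))
    (he'_eq : ∀ γ : Gamma0 N', e' γ = Matrix.SpecialLinearGroup.mapGL ℝ (γ : SL(2, ℤ)))
    {ι : Type*} [Fintype ι] (α : ι → GL (Fin 2) ℝ) (hα : IsStable e e' α)
    (hdet : ∀ i, 0 < (α i).val.det)
    (f : CuspForm (Gamma0 N) 2) (f' : CuspForm (Gamma0 N') 2)
    (hf' : (f' : ℍ → ℂ) = ∑ i, (f : ℍ → ℂ) ∣[(2 : ℤ)] α i) :
    heckeHom e he e' α hα (periodMap N f) = periodMap N' f' := by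
  refine AddMonoidHom.ext fun γ' => ?_
  obtain ⟨γ', rfl⟩ := Additive.ofMul.surjective γ'
  obtain ⟨σ, c, h⟩ := hα γ'
  rw [heckeHom_apply_of_reps e he e' α hα _ γ' σ c h]
  refine (periodMap_of_sum_slash f f' α hdet hf' γ' σ c fun i => ?_).symm
  rw [← he'_eq, ← he_eq]
  exact h i

/-- The standard embedding `Γ₀(N) → GL (Fin 2) ℝ`. -/
noncomputable def embGL (N : ℕ) : Gamma0 N →* GL (Fin 2) ℝ :=
  (Matrix.SpecialLinearGroup.mapGL ℝ).comp (Gamma0 N).subtype

theorem embGL_apply (γ : Gamma0 N) :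
    embGL N γ = Matrix.SpecialLinearGroup.mapGL ℝ (γ : SL(2, ℤ)) := rfl

theorem embGL_injective : Function.Injective (embGL N) := by
  intro a b hab
  apply Subtype.ext
  have h1 : (Matrix.SpecialLinearGroup.mapGL ℝ (a : SL(2, ℤ)) : GL (Fin 2) ℝ)
      = Matrix.SpecialLinearGroup.mapGL ℝ (b : SL(2, ℤ)) := hab
  exact Matrix.SpecialLinearGroup.mapGL_injective h1

/-- **[ES-EQUIV]** with the standard embeddings. -/
theorem heckeHom_embGL_periodMap [NeZero N] [NeZero N']
    {ι : Type*} [Fintype ι] (α : ι → GL (Fin 2) ℝ) (hα : IsStable (embGL N) (embGL N') α)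
    (hdet : ∀ i, 0 < (α i).val.det)
    (f : CuspForm (Gamma0 N) 2) (f' : CuspForm (Gamma0 N') 2)
    (hf' : (f' : ℍ → ℂ) = ∑ i, (f : ℍ → ℂ) ∣[(2 : ℤ)] α i) :
    heckeHom (embGL N) embGL_injective (embGL N') α hα (periodMap N f) = periodMap N' f' :=
  heckeHom_periodMap (embGL N) embGL_injective (embGL N') (fun _ => rfl) (fun _ => rfl)
    α hα hdet f f' hf'

end Fermat.Agent.S41.ESInt52
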