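import Mathlib
import Fermat.Agent.S41.ESInt52.EquivHecke
import Fermat.Prelude.Def_ModularForm_HeckeOperatorForms

/-!
# S41, C2 [ES-EQUIV]: E1 and E2 for the Prelude families

`heckeRep ℓ : OnePoint (ZMod ℓ) → GL (Fin 2) ℝ` (the `T_ℓ`-family of the Prelude proof of
`heckeT_slash_eq_self_of_mem_Gamma0`) and `fun x : ZMod ℓ => heckeMatrix ℓ x.val` (the `U_ℓ`-family):
for ANY proof of stability, the abstract operator `Hecke15.heckeHom` of the family corresponds to
`CuspForm.heckeTLin` resp. `CuspForm.heckeULin` under the period map.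
-/

set_option autoImplicit false

open Complex Filter Topology Function
open UpperHalfPlane hiding I
open scoped MatrixGroups Manifold ModularForm
open ModularCurve ModularCurve.Period CongruenceSubgroup
open Fermat.Agent.S41.Hecke15
open P2MW.S_ModularForm_heckeT_slash_eq_self_of_mem_Gamma0.ModularForm.HeckeSlashInvariance

namespace Fermat.Agent.S41.ESInt52

variable {N : ℕ}

theorem det_heckeRep_pos (ℓ : ℕ) (x : OnePoint (ZMod ℓ)) : 0 < (heckeRep ℓ x).val.det := by
  cases x using OnePoint.rec with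
  | infty =>
    have := ModularForm.det_heckeDiagMatrix_pos ℓ
    rwa [Matrix.GeneralLinearGroup.val_det_apply] at this
  | coe j =>
    have := ModularForm.det_heckeMatrix_pos ℓ j.val
    rwa [Matrix.GeneralLinearGroup.val_det_apply] at this

/-- **E1**: `T_ℓ` (`ℓ ∤ N`), for any embedding `e` pointwise equal to `mapGL ℝ ∘ coe` and any proof
of stability of the Prelude family `heckeRep ℓ`. -/
theorem heckeHom_heckeRep_periodMap [NeZero N] {ℓ : ℕ} [NeZero ℓ] (hℓ : ℓ.Prime) (hℓN : ¬ ℓ ∣ N)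
    (e : Gamma0 N →* GL (Fin 2) ℝ) (he : Function.Injective e)
    (he_eq : ∀ γ : Gamma0 N, e γ = Matrix.SpecialLinearGroup.mapGL ℝ (γ : SL(2, ℤ)))
    (hα : IsStable e e (heckeRep ℓ)) (f : CuspForm (Gamma0 N) 2) :
    heckeHom e he e (heckeRep ℓ) hα (periodMap N f)
      = periodMap N (CuspForm.heckeTLin 2 hℓ hℓN f) :=
  heckeHom_periodMap e he e he_eq he_eq (heckeRep ℓ) hα (det_heckeRep_pos ℓ) f
    (CuspForm.heckeTLin 2 hℓ hℓN f)
    (by rw [CuspForm.coe_heckeTLin_apply, heckeT_eq_sum_onePoint])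

/-- **E2**: `U_ℓ` (`ℓ ∣ N`), for any embedding `e` pointwise equal to `mapGL ℝ ∘ coe` and any proof
of stability of the Prelude family `x ↦ heckeMatrix ℓ x.val`. -/
theorem heckeHom_heckeMatrix_periodMap [NeZero N] {ℓ : ℕ} [NeZero ℓ] (hℓN : ℓ ∣ N)
    (e : Gamma0 N →* GL (Fin 2) ℝ) (he : Function.Injective e)
    (he_eq : ∀ γ : Gamma0 N, e γ = Matrix.SpecialLinearGroup.mapGL ℝ (γ : SL(2, ℤ)))
    (hα : IsStable e e (fun x : ZMod ℓ => ModularForm.heckeMatrix ℓ x.val))
    (f : CuspForm (Gamma0 N) 2) :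
    heckeHom e he e (fun x : ZMod ℓ => ModularForm.heckeMatrix ℓ x.val) hα (periodMap N f)
      = periodMap N (CuspForm.heckeULin 2 hℓN f) :=
  heckeHom_periodMap e he e he_eq he_eq (fun x : ZMod ℓ => ModularForm.heckeMatrix ℓ x.val) hα
    (fun x => by
      have := ModularForm.det_heckeMatrix_pos ℓ x.val
      rwa [Matrix.GeneralLinearGroup.val_det_apply] at this) f
    (CuspForm.heckeULin 2 hℓN f)
    (by rw [CuspForm.coe_heckeULin_apply, heckeU_eq_sum_zmod])

end Fermat.Agent.S41.ESInt52
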