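import Mathlib
import Fermat.Prelude.Def_ModularCurve_PeriodMap

/-!
# S41, [ES-INT] (B): the integral parabolic homs span the complex parabolic homs

For a finitely generated subgroup `Γ ≤ SL(2, ℤ)` (e.g. `Γ₀(N)`), the `ℂ`-span of the
`ℤ`-valued parabolic homs (viewed as `ℂ`-valued homs) is the whole space of `ℂ`-valued
parabolic homs: `L ⊗ ℂ = parabolicHoms ℂ Γ ℂ`.

Proof: the image of `φ : Γ → ℂ` is a finitely generated torsion-free abelian group, hence free;
the coordinates of `φ` in a `ℤ`-basis of its image are `ℤ`-valued parabolic homs.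
-/

set_option autoImplicit false

open scoped MatrixGroups
open ModularCurve.Period

namespace Fermat.Agent.S41.ESInt52

variable {Γ : Subgroup SL(2, ℤ)}

/-- A `ℤ`-valued hom, viewed as a `ℂ`-valued hom. -/
def intToComplex (Γ : Subgroup SL(2, ℤ)) : (Additive Γ →+ ℤ) →+ (Additive Γ →+ ℂ) where
  toFun ψ := (Int.castAddHom ℂ).comp ψ
  map_zero' := by ext; simp
  map_add' ψ ψ' := by ext; simp

@[simp] theorem intToComplex_apply (ψ : Additive Γ →+ ℤ) (γ : Additive Γ) :
    intToComplex Γ ψ γ = ((ψ γ : ℤ) : ℂ) := rfl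

theorem intToComplex_injective : Function.Injective (intToComplex Γ) := by
  intro ψ ψ' h
  refine AddMonoidHom.ext fun γ => ?_
  have := DFunLike.congr_fun h γ
  simp only [intToComplex_apply] at this
  exact_mod_cast this

theorem intToComplex_mem_parabolicHoms {ψ : Additive Γ →+ ℤ}
    (hψ : ψ ∈ parabolicHoms ℤ Γ ℤ) : intToComplex Γ ψ ∈ parabolicHoms ℂ Γ ℂ := by
  intro γ hγ
  rw [intToComplex_apply, hψ γ hγ, Int.cast_zero]

/-- The integral parabolic lattice inside the complex homs. -/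
def intLatticeSet (Γ : Subgroup SL(2, ℤ)) : Set (Additive Γ →+ ℂ) :=
  {ψ | ∃ ψ₀ ∈ parabolicHoms ℤ Γ ℤ, ψ = intToComplex Γ ψ₀}

theorem span_intLatticeSet_le :
    Submodule.span ℂ (intLatticeSet Γ) ≤ parabolicHoms ℂ Γ ℂ := by
  rw [Submodule.span_le]
  rintro ψ ⟨ψ₀, hψ₀, rfl⟩
  exact intToComplex_mem_parabolicHoms hψ₀

/-- **[LATTICE]**, one element: every complex parabolic hom on a finitely generated `Γ` is a
`ℂ`-linear combination of integral parabolic homs. -/
theorem mem_span_intLatticeSet (hfg : Group.FG Γ) {φ : Additive Γ →+ ℂ}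
    (hφ : φ ∈ parabolicHoms ℂ Γ ℂ) : φ ∈ Submodule.span ℂ (intLatticeSet Γ) := by
  classical
  -- the image of `φ`, as a `ℤ`-module
  set M : Submodule ℤ ℂ := AddSubgroup.toIntSubmodule φ.range with hM
  have hMfg : M.FG := by
    rw [hM, Submodule.fg_iff_addSubgroup_fg]
    have h1 : AddGroup.FG (Additive Γ) := GroupFG.iff_add_fg.mp hfg
    have h2 : AddGroup.FG φ.range := inferInstance
    exact (AddGroup.fg_iff_addSubgroup_fg _).mp h2
  have : Module.Finite ℤ M := Module.Finite.iff_fg.mpr hMfg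
  have : Module.Free ℤ M := Module.free_of_finite_type_torsion_free'
  let e := Module.Free.chooseBasis ℤ M
  -- `φ` with codomain `M`
  let φ' : Additive Γ →+ M :=
    { toFun := fun γ => ⟨φ γ, ⟨γ, rfl⟩⟩
      map_zero' := Subtype.ext (map_zero φ)
      map_add' := fun a b => Subtype.ext (map_add φ a b) }
  -- coordinates
  let n : Module.Free.ChooseBasisIndex ℤ M → (Additive Γ →+ ℤ) := fun j =>
    (e.coord j).toAddMonoidHom.comp φ'
  have hn : ∀ j, n j ∈ parabolicHoms ℤ Γ ℤ := by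
    intro j γ hγ
    have h0 : φ' (Additive.ofMul γ) = 0 := Subtype.ext (hφ γ hγ)
    show (e.coord j) (φ' (Additive.ofMul γ)) = 0
    rw [h0, map_zero]
  have hsum : φ = ∑ j, ((e j : M) : ℂ) • intToComplex Γ (n j) := by
    refine AddMonoidHom.ext fun γ => ?_
    have h1 := e.sum_repr (φ' γ)
    have h2 := congrArg (Subtype.val : M → ℂ) h1
    rw [AddMonoidHom.finsetSum_apply]
    have h3 : ((∑ j, e.repr (φ' γ) j • e j : M) : ℂ)
        = ∑ j, ((e.repr (φ' γ) j : ℤ) : ℂ) * ((e j : M) : ℂ) := by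
      rw [Submodule.coe_sum]
      refine Finset.sum_congr rfl fun j _ => ?_
      rw [Submodule.coe_smul, zsmul_eq_mul]
    rw [h3] at h2
    show φ γ = _
    have h4 : ((φ' γ : M) : ℂ) = φ γ := rfl
    rw [← h4, ← h2]
    refine Finset.sum_congr rfl fun j _ => ?_
    show _ = ((e j : M) : ℂ) • (intToComplex Γ (n j)) γ
    rw [intToComplex_apply, smul_eq_mul, mul_comm]
    rfl
  rw [hsum]
  refine Submodule.sum_mem _ fun j _ => Submodule.smul_mem _ _ (Submodule.subset_span ?_)
  exact ⟨n j, hn j, rfl⟩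

/-- **[LATTICE]**: `L ⊗ ℂ = parabolicHoms ℂ Γ ℂ` for finitely generated `Γ`. -/
theorem span_intLatticeSet (hfg : Group.FG Γ) :
    Submodule.span ℂ (intLatticeSet Γ) = parabolicHoms ℂ Γ ℂ :=
  le_antisymm span_intLatticeSet_le fun _ hφ => mem_span_intLatticeSet hfg hφ

/-- `SL(2, ℤ)` is finitely generated. -/
theorem fg_SL2Z : Group.FG SL(2, ℤ) := by
  rw [Group.fg_iff]
  refine ⟨{ModularGroup.S, ModularGroup.T}, ?_, by simp⟩
  exact SpecialLinearGroup.SL2Z_generators

/-- `Γ₀(N)` is finitely generated (Schreier). -/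
theorem fg_Gamma0 (N : ℕ) [NeZero N] : Group.FG (CongruenceSubgroup.Gamma0 N) := by
  have := fg_SL2Z
  exact Subgroup.fg_of_index_ne_zero _

/-- **[LATTICE]** for `Γ₀(N)`. -/
theorem span_intLatticeSet_Gamma0 (N : ℕ) [NeZero N] :
    Submodule.span ℂ (intLatticeSet (CongruenceSubgroup.Gamma0 N))
      = parabolicHoms ℂ (CongruenceSubgroup.Gamma0 N) ℂ :=
  span_intLatticeSet (fg_Gamma0 N)

end Fermat.Agent.S41.ESInt52
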