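import Mathlib
import Fermat.Agent.S41.ESInt52.PeriodSlash
import Fermat.Prelude.Def_ModularForm_HeckeOperatorForms

/-!
# S41, [ES-INT] (A'): the period map and the Prelude Hecke operators `T_ℓ`, `U_ℓ`

Integer-matrix versions of `periodMap_of_sum_slash`, specialised to the Prelude representatives
`heckeMatrix ℓ j = [[1, j], [0, ℓ]]` (`j < ℓ`) and `heckeDiagMatrix ℓ = [[ℓ, 0], [0, 1]]`.
-/

set_option autoImplicit false

open Complex Filter Topology Function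
open UpperHalfPlane hiding I
open scoped MatrixGroups Manifold ModularForm
open ModularCurve ModularCurve.Period CongruenceSubgroup
open Fermat.Agent.S22 Fermat.Agent.S21.PeriodPrim

namespace Fermat.Agent.S41.ESInt52

variable {N N' : ℕ}

/-- An integer matrix of positive determinant as an element of `GL (Fin 2) ℝ`. -/
noncomputable def glOfInt (A : Matrix (Fin 2) (Fin 2) ℤ) (hA : 0 < A.det) : GL (Fin 2) ℝ :=
  Matrix.GeneralLinearGroup.mkOfDetNeZero (A.map (Int.cast : ℤ → ℝ)) (by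
    have h : (A.map (Int.cast : ℤ → ℝ)).det = ((A.det : ℤ) : ℝ) := by
      have := (Int.castRingHom ℝ).map_det A
      simpa [RingHom.mapMatrix_apply] using this.symm
    rw [h]
    exact_mod_cast hA.ne')

@[simp] theorem val_glOfInt (A : Matrix (Fin 2) (Fin 2) ℤ) (hA : 0 < A.det) :
    ((glOfInt A hA : GL (Fin 2) ℝ) : Matrix (Fin 2) (Fin 2) ℝ) = A.map (Int.cast : ℤ → ℝ) := rfl

theorem det_glOfInt_pos (A : Matrix (Fin 2) (Fin 2) ℤ) (hA : 0 < A.det) :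
    0 < (glOfInt A hA).val.det := by
  have h : (A.map (Int.cast : ℤ → ℝ)).det = ((A.det : ℤ) : ℝ) := by
    have := (Int.castRingHom ℝ).map_det A
    simpa [RingHom.mapMatrix_apply] using this.symm
  rw [val_glOfInt, h]
  exact_mod_cast hA

theorem val_mapGL (s : SL(2, ℤ)) :
    ((Matrix.SpecialLinearGroup.mapGL ℝ s : GL (Fin 2) ℝ) : Matrix (Fin 2) (Fin 2) ℝ)
      = (s : Matrix (Fin 2) (Fin 2) ℤ).map (Int.cast : ℤ → ℝ) := rfl

/-- An integer matrix identity `A * γ = γ' * B` gives the identity in `GL (Fin 2) ℝ`. -/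
theorem glOfInt_mul_mapGL {A B : Matrix (Fin 2) (Fin 2) ℤ} (hA : 0 < A.det) (hB : 0 < B.det)
    {s s' : SL(2, ℤ)}
    (h : A * (s : Matrix (Fin 2) (Fin 2) ℤ) = (s' : Matrix (Fin 2) (Fin 2) ℤ) * B) :
    glOfInt A hA * (Matrix.SpecialLinearGroup.mapGL ℝ s : GL (Fin 2) ℝ)
      = (Matrix.SpecialLinearGroup.mapGL ℝ s' : GL (Fin 2) ℝ) * glOfInt B hB := by
  apply Units.ext
  rw [Units.val_mul, Units.val_mul, val_glOfInt, val_glOfInt, val_mapGL, val_mapGL]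
  have this : (A * (s : Matrix (Fin 2) (Fin 2) ℤ)).map (Int.cast : ℤ → ℝ)
      = ((s' : Matrix (Fin 2) (Fin 2) ℤ) * B).map (Int.cast : ℤ → ℝ) := by rw [h]
  rw [Matrix.map_mul_intCast, Matrix.map_mul_intCast] at this
  exact this

/-- **Period map of a sum of slashes, integer-matrix form.** -/
theorem periodMap_of_sum_slash_int [NeZero N] [NeZero N']
    (f : CuspForm (Gamma0 N) 2) (f' : CuspForm (Gamma0 N') 2)
    {ι : Type*} [Fintype ι] (A : ι → Matrix (Fin 2) (Fin 2) ℤ) (hA : ∀ i, 0 < (A i).det)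
    (hf' : (f' : ℍ → ℂ) = ∑ i, (f : ℍ → ℂ) ∣[(2 : ℤ)] glOfInt (A i) (hA i))
    (γ : Gamma0 N') (σ : ι ≃ ι) (γ' : ι → Gamma0 N)
    (h : ∀ i, A i * ((γ : SL(2, ℤ)) : Matrix (Fin 2) (Fin 2) ℤ)
      = ((γ' i : SL(2, ℤ)) : Matrix (Fin 2) (Fin 2) ℤ) * A (σ i)) :
    periodMap N' f' (Additive.ofMul γ) = ∑ i, periodMap N f (Additive.ofMul (γ' i)) :=
  periodMap_of_sum_slash f f' (fun i => glOfInt (A i) (hA i))
    (fun _ => det_glOfInt_pos _ _) hf' γ σ γ'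
    (fun i => glOfInt_mul_mapGL (hA i) (hA (σ i)) (h i))

/-- The Prelude representatives of `T_ℓ`, as integer matrices: `some j ↦ [[1, j], [0, ℓ]]`,
`none ↦ [[ℓ, 0], [0, 1]]`. -/
def heckeRepInt (ℓ : ℕ) : Option (Fin ℓ) → Matrix (Fin 2) (Fin 2) ℤ
  | some j => !![1, (j : ℕ); 0, (ℓ : ℤ)]
  | none => !![(ℓ : ℤ), 0; 0, 1]

theorem det_heckeRepInt {ℓ : ℕ} (hℓ : 0 < ℓ) (i : Option (Fin ℓ)) : 0 < (heckeRepInt ℓ i).det := by
  cases i with
  | some j => simp [heckeRepInt, Matrix.det_fin_two_of]; exact_mod_cast hℓ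
  | none => simp [heckeRepInt, Matrix.det_fin_two_of]; exact_mod_cast hℓ

theorem glOfInt_heckeRepInt_some {ℓ : ℕ} (hℓ : 0 < ℓ) (j : Fin ℓ) :
    glOfInt (heckeRepInt ℓ (some j)) (det_heckeRepInt hℓ _) = ModularForm.heckeMatrix ℓ j := by
  apply Units.ext
  rw [val_glOfInt, ModularForm.val_heckeMatrix hℓ.ne']
  ext a b
  fin_cases a <;> fin_cases b <;> simp [heckeRepInt]

theorem glOfInt_heckeRepInt_none {ℓ : ℕ} (hℓ : 0 < ℓ) :
    glOfInt (heckeRepInt ℓ none) (det_heckeRepInt hℓ _) = ModularForm.heckeDiagMatrix ℓ := by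
  apply Units.ext
  rw [val_glOfInt, ModularForm.val_heckeDiagMatrix hℓ.ne']
  ext a b
  fin_cases a <;> fin_cases b <;> simp [heckeRepInt]

/-- `heckeT` as a sum over `Option (Fin ℓ)`. -/
theorem heckeT_eq_sum_option {ℓ : ℕ} (hℓ : 0 < ℓ) (g : ℍ → ℂ) :
    ModularForm.heckeT 2 ℓ g
      = ∑ i : Option (Fin ℓ), g ∣[(2 : ℤ)] glOfInt (heckeRepInt ℓ i) (det_heckeRepInt hℓ i) := by
  rw [Fintype.sum_option, glOfInt_heckeRepInt_none hℓ, ModularForm.heckeT_def,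
    Finset.sum_range, add_comm]
  congr 1
  exact Finset.sum_congr rfl fun j _ => by rw [glOfInt_heckeRepInt_some hℓ]

/-- `heckeU` as a sum over `Fin ℓ`. -/
theorem heckeU_eq_sum_fin {ℓ : ℕ} (hℓ : 0 < ℓ) (g : ℍ → ℂ) :
    ModularForm.heckeU 2 ℓ g
      = ∑ j : Fin ℓ, g ∣[(2 : ℤ)]
          glOfInt (heckeRepInt ℓ (some j)) (det_heckeRepInt hℓ (some j)) := by
  rw [ModularForm.heckeU_def, Finset.sum_range]
  exact Finset.sum_congr rfl fun j _ => by rw [glOfInt_heckeRepInt_some hℓ]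

/-- **E1**: the period map of `T_ℓ f` (Prelude `heckeTLin`), for any coset bookkeeping `(σ, γ')`
with `A_i γ = γ'_i A_{σ i}` (integer matrices, `A = heckeRepInt ℓ`). -/
theorem periodMap_heckeTLin [NeZero N] {ℓ : ℕ} (hℓ : ℓ.Prime) (hℓN : ¬ ℓ ∣ N)
    (f : CuspForm (Gamma0 N) 2) (γ : Gamma0 N)
    (σ : Option (Fin ℓ) ≃ Option (Fin ℓ)) (γ' : Option (Fin ℓ) → Gamma0 N)
    (h : ∀ i, heckeRepInt ℓ i * ((γ : SL(2, ℤ)) : Matrix (Fin 2) (Fin 2) ℤ)
      = ((γ' i : SL(2, ℤ)) : Matrix (Fin 2) (Fin 2) ℤ) * heckeRepInt ℓ (σ i)) :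
    periodMap N (CuspForm.heckeTLin 2 hℓ hℓN f) (Additive.ofMul γ)
      = ∑ i, periodMap N f (Additive.ofMul (γ' i)) :=
  periodMap_of_sum_slash_int f (CuspForm.heckeTLin 2 hℓ hℓN f) (heckeRepInt ℓ)
    (det_heckeRepInt hℓ.pos)
    (by rw [CuspForm.coe_heckeTLin_apply, heckeT_eq_sum_option hℓ.pos]) γ σ γ' h

/-- **E2**: the period map of `U_ℓ f` (Prelude `heckeULin`), for any coset bookkeeping `(σ, γ')`
with `A_j γ = γ'_j A_{σ j}` (integer matrices, `A_j = [[1, j], [0, ℓ]]`). -/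
theorem periodMap_heckeULin [NeZero N] {ℓ : ℕ} (hℓ : 0 < ℓ) (hℓN : ℓ ∣ N)
    (f : CuspForm (Gamma0 N) 2) (γ : Gamma0 N)
    (σ : Fin ℓ ≃ Fin ℓ) (γ' : Fin ℓ → Gamma0 N)
    (h : ∀ j, heckeRepInt ℓ (some j) * ((γ : SL(2, ℤ)) : Matrix (Fin 2) (Fin 2) ℤ)
      = ((γ' j : SL(2, ℤ)) : Matrix (Fin 2) (Fin 2) ℤ) * heckeRepInt ℓ (some (σ j))) :
    periodMap N (CuspForm.heckeULin 2 hℓN f) (Additive.ofMul γ)
      = ∑ j, periodMap N f (Additive.ofMul (γ' j)) :=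
  periodMap_of_sum_slash_int f (CuspForm.heckeULin 2 hℓN f) (fun j => heckeRepInt ℓ (some j))
    (fun j => det_heckeRepInt hℓ (some j))
    (by rw [CuspForm.coe_heckeULin_apply, heckeU_eq_sum_fin hℓ]) γ σ γ' h

end Fermat.Agent.S41.ESInt52
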